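import Fermat.Agent.S43.ND.Main
import Fermat.Prelude.Def_AlgebraicCurve_Correspondence

/-!
# S43 / F / Abs : pull-back and norm on Kummer classes for a finite extension `F'/F` of function fields

`K` alg. closed, char. 0.  `pullK : Kum K F m →+ Kum K F' m`, `nmK : Kum K F' m →+ Kum K F m`.

* `e1K_pullK`    : adjunction `e(π^* x, y) = e(x, π_* y)` (`S15.W.e1_proj`);
* `nmK_pullK`    : `π_* π^* = [F':F]`;
* `exists_char`  : characters of a finite abelian group of exponent `m` with values in `μ_m(K)` separate the points modulo a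
                   subgroup, and (perfectness) are represented by the pairing;
* `exists_nmK_eq` : **(F)**  `x ∈ im π_*`  as soon as  `e(x, κ) = 1` for all `κ ∈ ker π^*`.
  (so `coker π_*` is dual to `ker π^*`, which is an ABELIAN Galois module: `κ = [f]`, `f = y^m`, `y ∈ F'`.)
-/

set_option autoImplicit false
set_option linter.style.haveILetI false
set_option linter.unusedSectionVars false

namespace Fermat.Agent.S43.F

open AlgebraicCurve Fermat.Agent.S26 Fermat.Agent.S37.Red Fermat.Agent.S48.B1 Fermat.Agent.S15.W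

noncomputable section

universe u

variable {K : Type*} {F F' : Type u} [Field K] [Field F] [Field F'] [Algebra K F] [Algebra K F']
  [Algebra F F'] [IsScalarTower K F F'] [Module.Finite F F'] [IsAlgClosed K] [CharZero K]
  [FF1 K F] [FF1 K F']

/-- a homomorphism `Fˣ →* F'ˣ` mapping `Dm` to `Dm` induces a map on Kummer classes. -/
def mapK {F₁ F₂ : Type*} [Field F₁] [Field F₂] [Algebra K F₁] [Algebra K F₂] {m : ℕ}
    (φ : F₁ˣ →* F₂ˣ) (hD : ∀ f ∈ Dm K F₁ m, φ f ∈ Dm K F₂ m) : Kum K F₁ m →+ Kum K F₂ m :=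
  MonoidHom.toAdditive (QuotientGroup.map _ _
    ((φ.comp (Dm K F₁ m).subtype).codRestrict (Dm K F₂ m) (fun f => hD f f.2)) (by
      rintro ⟨f, hf⟩ hfP
      rw [Subgroup.mem_subgroupOf] at hfP
      obtain ⟨h, hh⟩ := hfP
      rw [Subgroup.mem_comap, Subgroup.mem_subgroupOf]
      refine ⟨φ h, ?_⟩
      have hh' : h ^ m = f := hh
      show φ h ^ m = φ f
      rw [← map_pow, hh']))

theorem mapK_mk {F₁ F₂ : Type*} [Field F₁] [Field F₂] [Algebra K F₁] [Algebra K F₂] {m : ℕ}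
    (φ : F₁ˣ →* F₂ˣ) (hD : ∀ f ∈ Dm K F₁ m, φ f ∈ Dm K F₂ m) (f : Dm K F₁ m) :
    mapK φ hD (Kum.mk f) = Kum.mk ⟨φ f, hD f f.2⟩ := rfl

variable (K F F')

theorem pull_mem_Dm (m : ℕ) (f : Fˣ) (hf : f ∈ Dm K F m) :
    Units.map (algebraMap F F' : F →* F') f ∈ Dm K F' m := by
  have h : IsDm K m ((f : Fˣ) : F) := ⟨f.ne_zero, fun P => hf P⟩
  exact fun P => (isDm_algebraMap' (F' := F') h).2 P

theorem nm_mem_Dm (m : ℕ) (g : F'ˣ) (hg : g ∈ Dm K F' m) :
    Units.map (Algebra.norm F : F' →* F) g ∈ Dm K F m := by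
  have h : IsDm K m ((g : F'ˣ) : F') := ⟨g.ne_zero, fun P => hg P⟩
  exact fun P => (isDm_norm (F := F) h).2 P

/-- `π^*`. -/
def pullK (m : ℕ) : Kum K F m →+ Kum K F' m :=
  mapK (Units.map (algebraMap F F' : F →* F')) (pull_mem_Dm K F F' m)

/-- `π_*` (the norm). -/
def nmK (m : ℕ) : Kum K F' m →+ Kum K F m :=
  mapK (Units.map (Algebra.norm F : F' →* F)) (nm_mem_Dm K F F' m)

variable {K F F'}

theorem pullK_mk {m : ℕ} (f : Dm K F m) :
    pullK K F F' m (Kum.mk f) = Kum.mk ⟨Units.map (algebraMap F F' : F →* F') f,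
      pull_mem_Dm K F F' m f f.2⟩ := rfl

theorem nmK_mk {m : ℕ} (g : Dm K F' m) :
    nmK K F F' m (Kum.mk g) = Kum.mk ⟨Units.map (Algebra.norm F : F' →* F) g,
      nm_mem_Dm K F F' m g g.2⟩ := rfl

/-- adjunction. -/
theorem e1K_pullK {m : ℕ} (hm : m ≠ 0) (x : Kum K F m) (y : Kum K F' m) :
    e1K (pullK K F F' m x) y = e1K x (nmK K F F' m y) := by
  obtain ⟨f, rfl⟩ := Kum.mk_surjective x
  obtain ⟨g, rfl⟩ := Kum.mk_surjective y
  rw [pullK_mk, nmK_mk, e1K_mk hm, e1K_mk hm]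
  exact e1_proj hm (isDm_coe f) (isDm_coe g)

theorem nmK_pullK {m : ℕ} (x : Kum K F m) :
    nmK K F F' m (pullK K F F' m x) = Module.finrank F F' • x := by
  obtain ⟨f, rfl⟩ := Kum.mk_surjective x
  rw [pullK_mk, nmK_mk, ← Kum.mk_pow]
  congr 1
  apply Subtype.ext
  apply Units.ext
  show Algebra.norm F (algebraMap F F' ((f : Fˣ) : F)) = (((f ^ Module.finrank F F' : Dm K F m) : Fˣ) : F)
  rw [Algebra.norm_algebraMap]
  rfl

/-- `κ ∈ ker π^*` iff a representative becomes an `m`-th power in `F'`. -/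
theorem pullK_mk_eq_zero_iff {m : ℕ} (hm : m ≠ 0) (f : Dm K F m) :
    pullK K F F' m (Kum.mk f) = 0 ↔ ∃ y : F', y ^ m = algebraMap F F' ((f : Fˣ) : F) := by
  rw [pullK_mk, Kum.mk_eq_zero_iff]
  constructor
  · rintro ⟨h, hh⟩
    refine ⟨h, ?_⟩
    have := congrArg (fun u : F'ˣ => (u : F')) hh
    simpa using this
  · rintro ⟨y, hy⟩
    have hy0 : y ≠ 0 := by
      rintro rfl
      rw [zero_pow hm] at hy
      exact (f : Fˣ).ne_zero ((map_eq_zero _).1 hy.symm)
    exact ⟨Units.mk0 y hy0, Units.ext (by simpa using hy)⟩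

/-! ### perfect duality for finite groups -/

/-- double orthogonal: a finite abelian group `V` with a right non degenerate pairing with values in `Kˣ`. -/
theorem mem_of_perp {V : Type*} [AddCommGroup V] [Finite V] {k : Type*} [Field k] [IsAlgClosed k]
    [CharZero k] (β : V →+ V →+ Additive kˣ) (hnd : ∀ a, (∀ b, β b a = 0) → a = 0)
    (I : AddSubgroup V) (x : V) (hx : ∀ κ, (∀ i ∈ I, β i κ = 0) → β x κ = 0) : x ∈ I := by
  classical
  have hexp : Monoid.exponent (Multiplicative V) ≠ 0 := Monoid.exponent_ne_zero_of_finite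
  have : NeZero ((Monoid.exponent (Multiplicative V) : ℕ) : k) := ⟨by exact_mod_cast hexp⟩
  have hE : HasEnoughRootsOfUnity k (Monoid.exponent (Multiplicative V)) := inferInstance
  let Ψ : V → (Multiplicative V →* kˣ) := fun κ => AddMonoidHom.toMultiplicativeLeft (β.flip κ)
  have hΨ : ∀ κ b, Ψ κ (Multiplicative.ofAdd b) = (β b κ).toMul := fun κ b => rfl
  have hinj : Function.Injective Ψ := by
    intro κ κ' h
    rw [← sub_eq_zero]
    apply hnd
    intro b
    have h1 := DFunLike.congr_fun h (Multiplicative.ofAdd b)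
    rw [hΨ, hΨ] at h1
    rw [map_sub, Additive.toMul.injective h1, sub_self]
  have hcard : Nat.card (Multiplicative V →* kˣ) = Nat.card V := by
    rw [CommGroup.card_monoidHom_of_hasEnoughRootsOfUnity]
    rfl
  have hfin : Finite (Multiplicative V →* kˣ) := by
    apply Nat.finite_of_card_ne_zero
    rw [hcard]
    exact Nat.card_pos.ne'
  have hsurj : Function.Surjective Ψ := by
    have hb : Function.Bijective Ψ := by
      rw [Nat.bijective_iff_injective_and_card]
      exact ⟨hinj, hcard.symm⟩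
    exact hb.2
  have key := (CommGroup.forall_monoidHom_apply_eq_one_iff (M := k)
    (AddSubgroup.toSubgroup I) (Multiplicative.ofAdd x)).1 ?_
  · exact key
  · intro φ hφ
    obtain ⟨κ, rfl⟩ := hsurj φ
    rw [hΨ]
    have h1 : β x κ = 0 := by
      apply hx
      intro i hi
      have h2 := hφ (Multiplicative.ofAdd i) hi
      rw [hΨ] at h2
      exact Additive.toMul.injective h2
    rw [h1]
    rfl

/-- **(F)** the image of the norm is the orthogonal of the kernel of the pull-back. -/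
theorem exists_nmK_eq {m : ℕ} (hm : m ≠ 0) (j : K →+* ℂ) [Finite (Kum K F m)] (x : Kum K F m)
    (hx : ∀ κ : Kum K F m, pullK K F F' m κ = 0 → e1K x κ = 1) :
    ∃ y : Kum K F' m, nmK K F F' m y = x := by
  have h0 : ∀ a b : Kum K F m, e1Hom hm a b = 0 ↔ e1K a b = 1 := by
    intro a b
    constructor
    · intro h
      rw [← e1Hom_apply hm, h]
      rfl
    · intro h
      apply Additive.toMul.injective
      apply Units.ext
      rw [e1Hom_apply hm, h]
      rfl
  have := mem_of_perp (e1Hom hm) (fun a ha => ND.eq_zero_of_e1K_right hm j fun b => (h0 b a).1 (ha b))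
    (nmK K F F' m).range x ?_
  · obtain ⟨y, hy⟩ := this
    exact ⟨y, hy⟩
  · intro κ hκ
    rw [h0]
    apply hx
    apply ND.eq_zero_of_e1K_left hm j
    intro y
    rw [e1K_pullK hm, e1K_eq_one_comm hm, ← h0]
    exact hκ _ ⟨y, rfl⟩

/-- **(F)**, version along an embedding `ι : F →ₐ[K] F'` (no instance `Algebra F F'` in the statement). -/
theorem exists_norm_along {F₁ F₂ : Type u} [Field F₁] [Field F₂] [Algebra K F₁] [Algebra K F₂]
    [FF1 K F₁] (ι : F₁ →ₐ[K] F₂)
    (hfin : @Module.Finite F₁ F₂ _ _ (algebraAlong ι).toModule) {m : ℕ} (hm : m ≠ 0)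
    (j : K →+* ℂ) [Finite (Kum K F₁ m)] (x : Kum K F₁ m)
    (hx : ∀ f : Dm K F₁ m, (∃ y : F₂, y ^ m = ι ((f : F₁ˣ) : F₁)) → e1K x (Kum.mk f) = 1) :
    ∃ (g : Dm K F₂ m)
      (hg : Units.map (@Algebra.norm F₁ F₂ _ _ (algebraAlong ι) : F₂ →* F₁) g ∈ Dm K F₁ m),
      x = Kum.mk ⟨_, hg⟩ := by
  letI : Algebra F₁ F₂ := algebraAlong ι
  haveI : IsScalarTower K F₁ F₂ := isScalarTower_along ι
  haveI : Module.Finite F₁ F₂ := hfin
  haveI : FF1 K F₂ := Sq.ff1_of_finite K F₁ F₂
  obtain ⟨y, hy⟩ := exists_nmK_eq (F' := F₂) hm j x (by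
    intro κ hκ
    obtain ⟨f, rfl⟩ := Kum.mk_surjective κ
    obtain ⟨y, hy⟩ := (pullK_mk_eq_zero_iff hm f).1 hκ
    exact hx f ⟨y, hy⟩)
  obtain ⟨g, rfl⟩ := Kum.mk_surjective y
  exact ⟨g, nm_mem_Dm K F₁ F₂ m g g.2, hy.symm⟩

end

end Fermat.Agent.S43.F
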