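import Fermat.Agent.S43.F.Abs
import Fermat.Agent.S43.R0.Push
import Fermat.Agent.S43.CH.Cyc
import Fermat.Agent.S15.W.Mod
import Fermat.Agent.ES.Glue.Iota

/-!
# S43 / F / Main : `π_* : Kum(F1(N), m) → Kum(N, m)` is onto up to a module with TRIVIAL Galois action

* `gal_of_pull_eq_zero` : `G_ℚ` acts on `ker π^*` through the cyclotomic character (the Shimura subgroup is of `μ`-type);
* `e1N_gal_sub`         : `e((σ - 1) x, κ) = 1` for `κ ∈ ker π^*`;
* `exists_push_eq`      : **(F)** for all `σ ∈ G_ℚ`, `x ∈ Kum N m` : `σ x - x ∈ im π_*`.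
-/

set_option autoImplicit false
set_option linter.unusedSectionVars false
set_option linter.style.haveILetI false

open AlgebraicCurve ModularCurve

namespace Fermat.Agent.S43.F

open Fermat.Agent.S48 Fermat.Agent.S26 Fermat.Agent.S43.R0
open Fermat.Agent.ES (Qb GQ FF)
open Fermat.Agent.S15.W (e1N e1K toB1)

noncomputable section

variable {N : ℕ} [NeZero N] (hN : 5 ≤ N)

/-- `κ ∈ ker π^*` : a representative is an `m`-th power in `F1(N)`. -/
theorem exists_root_of_pull_eq_zero {m : ℕ} (f : ES.Dm N m) (h : pull hN m (ES.Kum.mk f) = 0) :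
    ∃ y : (X1.F1Q N).F, y ≠ 0 ∧ y ^ m = incl hN ((f : (FF N)ˣ) : FF N) := by
  rw [pull_mk, B1.Kum.mk_eq_zero_iff] at h
  obtain ⟨y, hy⟩ := h
  refine ⟨y, y.ne_zero, ?_⟩
  have := congrArg (fun u : (X1.F1Q N).Fˣ => (u : (X1.F1Q N).F)) hy
  simpa using this

/-- an `m`-th root of unity of `F1(N)` is a constant. -/
theorem exists_const_of_pow_eq_one {m : ℕ} (hm : m ≠ 0) {z : (X1.F1Q N).F} (hz : z ^ m = 1) :
    ∃ c : Qb, c ^ m = 1 ∧ z = algebraMap Qb (X1.F1Q N).F c := by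
  have : NeZero m := ⟨hm⟩
  obtain ⟨ζ, hζ⟩ := HasEnoughRootsOfUnity.exists_primitiveRoot Qb m
  have hζ' : IsPrimitiveRoot (algebraMap Qb (X1.F1Q N).F ζ) m :=
    hζ.map_of_injective (algebraMap Qb (X1.F1Q N).F).injective
  obtain ⟨i, -, hi⟩ := hζ'.eq_pow_of_pow_eq_one hz
  refine ⟨ζ ^ i, ?_, ?_⟩
  · rw [← pow_mul, mul_comm, pow_mul, hζ.pow_eq_one, one_pow]
  · rw [map_pow, hi]

/-- `G_ℚ` acts on `ker π^*` through the cyclotomic character. -/
theorem gal_of_pull_eq_zero {m : ℕ} (hm : m ≠ 0) (σ : GQ) (e : ℕ)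
    (he : ∀ ζ : Qb, ζ ^ m = 1 → σ ζ = ζ ^ e) (κ : ES.Kum N m) (hκ : pull hN m κ = 0) :
    ES.galKum N m σ κ = e • κ := by
  obtain ⟨f, rfl⟩ := ES.Kum.mk_surjective κ
  obtain ⟨y, hy0, hy⟩ := exists_root_of_pull_eq_zero hN f hκ
  set z : (X1.F1Q N).F := (X1.F1Q N).galF σ y / y ^ e with hz
  have hfix : ∀ d : (ZMod N)ˣ, An1.dia (DD hN) d z = z := by
    intro d
    have h1 : (An1.dia (DD hN) d y / y) ^ m = 1 := by
      rw [div_pow, ← map_pow, hy, dia_incl, div_self]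
      rw [← hy]
      exact pow_ne_zero _ hy0
    obtain ⟨c, hc, hcy⟩ := exists_const_of_pow_eq_one hm h1
    have h2 : An1.dia (DD hN) d y = algebraMap Qb (X1.F1Q N).F c * y := by
      rw [← hcy]; field_simp
    rw [hz, map_div₀, map_pow, An1.dia_gal, h2, map_mul, B1.QField.galF_algebraMap, he c hc,
      mul_pow, map_pow]
    have hc0 : algebraMap Qb (X1.F1Q N).F c ≠ 0 := by
      rw [Ne, map_eq_zero]
      rintro rfl
      rw [zero_pow hm] at hc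
      exact zero_ne_one hc
    field_simp
  obtain ⟨g, hg⟩ := mem_range_incl hN z hfix
  have hz0 : z ≠ 0 := by
    rw [hz]
    refine div_ne_zero ?_ (pow_ne_zero _ hy0)
    rw [Ne, map_eq_zero]; exact hy0
  have hg0 : g ≠ 0 := by
    rintro rfl
    rw [map_zero] at hg
    exact hz0 hg.symm
  rw [ES.galKum_mk, ← ES.Kum.mk_pow, ES.Kum.mk_eq_mk_iff]
  refine ⟨Units.mk0 g hg0, Units.ext ?_⟩
  apply incl_injective hN
  have h3 : incl hN (g ^ m) = z ^ m := by rw [map_pow, hg]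
  have h4 : z ^ m = incl hN (ES.galF N σ ((f : (FF N)ˣ) : FF N))
      / incl hN ((f : (FF N)ˣ) : FF N) ^ e := by
    rw [hz, div_pow, ← map_pow, hy, galF_incl, ← pow_mul, mul_comm e m, pow_mul, hy]
  have h5 : ((Units.mk0 g hg0 ^ m : (FF N)ˣ) : FF N) = g ^ m := by
    rw [Units.val_pow_eq_pow_val, Units.val_mk0]
  have h6 : (((⟨ES.galU N σ f, ES.galU_mem_Dm σ f.2⟩ : ES.Dm N m) : (FF N)ˣ)
      * (((f ^ e : ES.Dm N m) : (FF N)ˣ))⁻¹ : (FF N)ˣ).val
      = ES.galF N σ ((f : (FF N)ˣ) : FF N) * (((f : (FF N)ˣ) : FF N) ^ e)⁻¹ := by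
    rw [Units.val_mul, Units.val_inv_eq_inv_val, SubgroupClass.coe_pow, Units.val_pow_eq_pow_val,
      ES.coe_galU]
  rw [h5, h6, h3, h4, map_mul, map_inv₀, map_pow, div_eq_mul_inv]

/-- `(σ - 1) x` is orthogonal to `ker π^*`. -/
theorem e1N_gal_sub {m : ℕ} (hm : m ≠ 0) (σ : GQ) (x κ : ES.Kum N m) (hκ : pull hN m κ = 0) :
    e1N (ES.galKum N m σ x - x) κ = 1 := by
  have : NeZero m := ⟨hm⟩
  set n : ℕ := (((CH.cyc m σ : (ZMod m)ˣ) : ZMod m)).val with hn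
  have he : ∀ ζ : Qb, ζ ^ m = 1 → σ ζ = ζ ^ n := fun ζ hζ => CH.cyc_spec m σ ζ hζ
  have hcop : Nat.Coprime n m := ZMod.val_coe_unit_coprime (CH.cyc m σ)
  have h1 := Fermat.Agent.S15.W.e1N_gal_pow hm σ he x κ
  rw [gal_of_pull_eq_zero hN hm σ n he κ hκ] at h1
  have h2 : e1N (ES.galKum N m σ x) (n • κ) = e1N (ES.galKum N m σ x) κ ^ n := by
    unfold e1N
    rw [map_nsmul, Fermat.Agent.S15.W.e1K_nsmul_right hm]
  rw [h2] at h1
  have h3 : e1N (ES.galKum N m σ x - x) κ = e1N (ES.galKum N m σ x) κ * (e1N x κ)⁻¹ := by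
    unfold e1N
    rw [sub_eq_add_neg, map_add, map_neg, Fermat.Agent.S15.W.e1K_add_left hm,
      Fermat.Agent.S15.W.e1K_neg_left hm]
  have hx0 : e1N x κ ≠ 0 := Fermat.Agent.S15.W.e1N_ne_zero hm x κ
  set r : Qb := e1N (ES.galKum N m σ x) κ * (e1N x κ)⁻¹ with hr
  have hrn : r ^ n = 1 := by
    rw [hr, mul_pow, inv_pow, h1, mul_inv_cancel₀ (pow_ne_zero _ hx0)]
  have hrm : r ^ m = 1 := by
    rw [hr, mul_pow, inv_pow, Fermat.Agent.S15.W.e1N_pow hm, Fermat.Agent.S15.W.e1N_pow hm,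
      inv_one, mul_one]
  have h4 := pow_gcd_eq_one.2 ⟨hrn, hrm⟩
  rw [Nat.Coprime.gcd_eq_one hcop, pow_one] at h4
  rw [h3, h4]

/-- **(F)** : the cokernel of `π_*` has trivial Galois action. -/
theorem exists_push_eq {m : ℕ} (hm : m ≠ 0) (σ : GQ) (x : ES.Kum N m) :
    ∃ y : B1.Kum Qb (X1.F1Q N).F m, push hN m y = ES.galKum N m σ x - x := by
  haveI : Finite (B1.Kum Qb (FF N) m) := by
    have := ES.Glue.finite_Kum (N := N) (Nat.pos_of_ne_zero hm)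
    exact Finite.of_equiv _ (toB1 N m).toEquiv
  have halg : Algebra.IsAlgebraic ℚ (AlgebraicClosure ℚ) :=
    (inferInstance : @Algebra.IsAlgebraic ℚ (AlgebraicClosure ℚ) _ _
      (AlgebraicClosure.instAlgebra ℚ))
  obtain ⟨g, hg, hx⟩ := exists_norm_along (incl hN) (finite_along hN) hm
    ((IsAlgClosed.lift : AlgebraicClosure ℚ →ₐ[ℚ] ℂ) : AlgebraicClosure ℚ →+* ℂ)
    (toB1 N m (ES.galKum N m σ x - x)) (by
      intro f hf
      obtain ⟨y, hy⟩ := hf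
      have hy0 : y ≠ 0 := by
        rintro rfl
        rw [zero_pow hm] at hy
        exact (f : (FF N)ˣ).ne_zero ((map_eq_zero _).1 hy.symm)
      have h1 := e1N_gal_sub hN hm σ x (ES.Kum.mk ⟨f.1, f.2⟩) (by
        rw [pull_mk, B1.Kum.mk_eq_zero_iff]
        exact ⟨Units.mk0 y hy0, Units.ext (by
          rw [Units.val_pow_eq_pow_val, Units.val_mk0, hy]; rfl)⟩)
      exact h1)
  refine ⟨B1.Kum.mk g, ?_⟩
  rw [push_mk]
  exact (toB1 N m).injective hx.symm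

end

end Fermat.Agent.S43.F
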